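import Mathlib

/-!
# Level-one modular forms: Galois twists and integral spanning sets

Results about modular forms for `SL(2, ℤ)` and their q-expansions (`qExpansion 1`):

* `Fermat.Agent.Lib.IntStruct.LevelOne.discriminant_qExpansion_coeff_int`:
  the q-expansion of the modular discriminant has integer coefficients.
* `Fermat.Agent.Lib.IntStruct.LevelOne.twist`: for every ring hom `σ : ℂ →+* ℂ`,
  every level-one modular form has a `σ`-twist (coefficientwise on q-expansions).
* `Fermat.Agent.Lib.IntStruct.LevelOne.span_int`: the space of level-one modular forms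
  of weight `k` is spanned over `ℂ` by forms with integer q-expansion coefficients.
* `Fermat.Agent.Lib.IntStruct.LevelOne.bddDenom_linear`, `bddDenom`: bounded denominators.
* `Fermat.Agent.Lib.IntStruct.LevelOne.levelOne_induction`: structural induction
  (`0`, constants, `a • E_k + Δ * g`).
-/

open UpperHalfPlane ModularForm MatrixGroups EisensteinSeries

set_option autoImplicit false

namespace Fermat.Agent.Lib.IntStruct.LevelOne

/-- The power series `∑ σ_j(n) qⁿ` with integer coefficients. -/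
noncomputable def sigmaSeries (j : ℕ) : PowerSeries ℤ :=
  PowerSeries.mk fun n => ((ArithmeticFunction.sigma j n : ℕ) : ℤ)

lemma coeff_sigmaSeries (j n : ℕ) :
    (sigmaSeries j).coeff n = ((ArithmeticFunction.sigma j n : ℕ) : ℤ) := by
  simp [sigmaSeries]

/-- The complex power series obtained from an integral one. -/
noncomputable abbrev toC (p : PowerSeries ℤ) : PowerSeries ℂ := p.map (Int.castRingHom ℂ)

lemma coeff_toC_one_add_smul (c : ℤ) (j n : ℕ) :
    (toC (1 + c • sigmaSeries j)).coeff n =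
      if n = 0 then 1 else (c : ℂ) * ((ArithmeticFunction.sigma j n : ℕ) : ℂ) := by
  rw [toC, PowerSeries.coeff_map, map_add, PowerSeries.coeff_one, map_zsmul,
    coeff_sigmaSeries]
  split_ifs with hn
  · subst hn
    simp
  · simp

lemma qExpansion_E4 :
    qExpansion 1 E₄ = toC (1 + (240 : ℤ) • sigmaSeries 3) := by
  ext n
  rw [E_qExpansion_coeff _ ⟨2, rfl⟩, coeff_toC_one_add_smul]
  norm_num [show bernoulli 4 = -1 / 30 by decide +kernel]

lemma qExpansion_E6 :
    qExpansion 1 E₆ = toC (1 + (-504 : ℤ) • sigmaSeries 5) := by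
  ext n
  rw [E_qExpansion_coeff _ ⟨3, rfl⟩, coeff_toC_one_add_smul]
  norm_num [show bernoulli 6 = 1 / 42 by decide +kernel]

/-- `12 ∣ 5 d³ + 7 d⁵`. -/
lemma twelve_dvd_aux (d : ℕ) : (12 : ℤ) ∣ 5 * (d : ℤ) ^ 3 + 7 * (d : ℤ) ^ 5 := by
  have h : ∀ x : ZMod 12, 5 * x ^ 3 + 7 * x ^ 5 = 0 := by decide
  have h' := h (d : ZMod 12)
  refine (ZMod.intCast_zmod_eq_zero_iff_dvd (5 * (d : ℤ) ^ 3 + 7 * (d : ℤ) ^ 5) 12).mp ?_
  push_cast
  exact h'

lemma twelve_dvd_sigma (n : ℕ) :
    (12 : ℤ) ∣ 5 * ((ArithmeticFunction.sigma 3 n : ℕ) : ℤ) +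
      7 * ((ArithmeticFunction.sigma 5 n : ℕ) : ℤ) := by
  rw [ArithmeticFunction.sigma_apply, ArithmeticFunction.sigma_apply]
  push_cast
  rw [Finset.mul_sum, Finset.mul_sum, ← Finset.sum_add_distrib]
  exact Finset.dvd_sum fun d _ => twelve_dvd_aux d

/-- The integral power series `(5 σ₃ + 7 σ₅)/12`. -/
noncomputable def corrSeries : PowerSeries ℤ :=
  PowerSeries.mk fun n => (5 * ((ArithmeticFunction.sigma 3 n : ℕ) : ℤ) +
      7 * ((ArithmeticFunction.sigma 5 n : ℕ) : ℤ)) / 12

lemma twelve_mul_corrSeries :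
    (12 : PowerSeries ℤ) * corrSeries = 5 * sigmaSeries 3 + 7 * sigmaSeries 5 := by
  have h : (12 : ℤ) • corrSeries = (5 : ℤ) • sigmaSeries 3 + (7 : ℤ) • sigmaSeries 5 := by
    ext n
    rw [map_add, map_zsmul, map_zsmul, map_zsmul, coeff_sigmaSeries, coeff_sigmaSeries,
      corrSeries, PowerSeries.coeff_mk, smul_eq_mul, smul_eq_mul, smul_eq_mul]
    exact Int.mul_ediv_cancel' (twelve_dvd_sigma n)
  simpa [zsmul_eq_mul] using h

/-- The integral q-expansion of `Δ`. -/
noncomputable def deltaSeries : PowerSeries ℤ :=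
  corrSeries + 100 * sigmaSeries 3 ^ 2 + 8000 * sigmaSeries 3 ^ 3 - 147 * sigmaSeries 5 ^ 2

lemma deltaSeries_identity :
    (1 + (240 : ℤ) • sigmaSeries 3) ^ 3 - (1 + (-504 : ℤ) • sigmaSeries 5) ^ 2 =
      1728 * deltaSeries := by
  have h := twelve_mul_corrSeries
  simp only [zsmul_eq_mul]
  push_cast
  unfold deltaSeries
  linear_combination (-144) * h

lemma qExpansion_discriminant :
    qExpansion 1 ModularForm.discriminant = toC deltaSeries := by
  set F : ModularForm 𝒮ℒ 12 :=
    ModularForm.mcast (by decide) (E₄.pow 3) - ModularForm.mcast (by decide) (E₆.pow 2) with hF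
  have hfun : ((1728 : ℂ) • (CuspForm.discriminant : ℍ → ℂ)) = ⇑F := by
    funext z
    simp only [hF, Pi.smul_apply, smul_eq_mul, CuspForm.coe_discriminant, coe_mcast, coe_pow,
      sub_apply, Pi.pow_apply]
    rw [discriminant_eq_E₄_cube_sub_E₆_sq z]
    ring
  have h1 : (1728 : ℂ) • qExpansion 1 ModularForm.discriminant =
      qExpansion 1 E₄ ^ 3 - qExpansion 1 E₆ ^ 2 := by
    have h2 := ModularForm.qExpansion_smul one_pos one_mem_strictPeriods_SL (1728 : ℂ)
      CuspForm.discriminant
    rw [hfun] at h2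
    rw [CuspForm.coe_discriminant] at h2
    rw [← h2, hF]
    simp only [FunLike.coe_sub, coe_mcast,
      ModularForm.qExpansion_sub one_pos one_mem_strictPeriods_SL,
      ModularForm.qExpansion_pow one_pos one_mem_strictPeriods_SL]
  rw [qExpansion_E4, qExpansion_E6, toC, toC, ← map_pow, ← map_pow, ← map_sub,
    deltaSeries_identity] at h1
  have h3 : (PowerSeries.map (Int.castRingHom ℂ)) (1728 * deltaSeries) =
      (1728 : ℂ) • toC deltaSeries := by
    rw [map_mul, map_ofNat, ← map_ofNat (PowerSeries.C (R := ℂ)) 1728,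
      ← PowerSeries.smul_eq_C_mul]
  rw [h3] at h1
  exact smul_right_injective _ (by norm_num : (1728 : ℂ) ≠ 0) h1

/-- **Integrality of `Δ`.** The q-expansion of the modular discriminant has integer
coefficients. -/
theorem discriminant_qExpansion_coeff_int (n : ℕ) :
    ∃ m : ℤ, (qExpansion 1 ModularForm.discriminant).coeff n = (m : ℂ) := by
  refine ⟨deltaSeries.coeff n, ?_⟩
  rw [qExpansion_discriminant, toC, PowerSeries.coeff_map]
  rfl

/-- A ring hom `ℂ →+* ℂ` fixes integral power series. -/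
lemma map_toC (σ : ℂ →+* ℂ) (p : PowerSeries ℤ) : (toC p).map σ = toC p := by
  ext n
  simp [toC]

lemma map_qExpansion_discriminant (σ : ℂ →+* ℂ) :
    (qExpansion 1 ModularForm.discriminant).map σ = qExpansion 1 ModularForm.discriminant := by
  rw [qExpansion_discriminant, map_toC]

/-- The coefficients of the Eisenstein series `E_k` are rational, with an explicit shape. -/
lemma qExpansion_E_coeff_rat {k : ℕ} (hk : 3 ≤ k) (hk2 : Even k) :
    ∃ r : ℚ, ∀ n : ℕ, (qExpansion 1 (E hk)).coeff n =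
      if n = 0 then 1 else (r : ℂ) * ((ArithmeticFunction.sigma (k - 1) n : ℕ) : ℂ) := by
  refine ⟨-(2 * k / bernoulli k), fun n => ?_⟩
  rw [E_qExpansion_coeff hk hk2]
  push_cast
  rfl

lemma map_qExpansion_E (σ : ℂ →+* ℂ) {k : ℕ} (hk : 3 ≤ k) (hk2 : Even k) :
    (qExpansion 1 (E hk)).map σ = qExpansion 1 (E hk) := by
  obtain ⟨r, hr⟩ := qExpansion_E_coeff_rat hk hk2
  ext n
  rw [PowerSeries.coeff_map, hr]
  split_ifs <;> simp

/-- Multiplication by `Δ`, as a linear map from weight `k - 12` to weight `k`. -/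
noncomputable def mulDelta (k : ℤ) : ModularForm 𝒮ℒ (k - 12) →ₗ[ℂ] ModularForm 𝒮ℒ k :=
  CuspForm.toModularFormₗ ∘ₗ (CuspForm.discriminantEquiv (k := k)).symm.toLinearMap

lemma coe_mulDelta (k : ℤ) (g : ModularForm 𝒮ℒ (k - 12)) :
    (⇑(mulDelta k g) : ℍ → ℂ) = ⇑CuspForm.discriminant * ⇑g := by
  funext z
  rfl

lemma qExpansion_mulDelta (k : ℤ) (g : ModularForm 𝒮ℒ (k - 12)) :
    qExpansion 1 (mulDelta k g) = qExpansion 1 ModularForm.discriminant * qExpansion 1 g := by
  rw [coe_mulDelta, ModularForm.qExpansion_mul_coe one_pos one_mem_strictPeriods_SL,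
    CuspForm.coe_discriminant]

/-- Every level-one form of even weight `k ≥ 4` is `a • E_k + Δ * g`. -/
lemma exists_decomp {k : ℕ} (hk : 3 ≤ k) (hk2 : Even k) (f : ModularForm 𝒮ℒ k) :
    ∃ g : ModularForm 𝒮ℒ ((k : ℤ) - 12),
      f = (qExpansion 1 f).coeff 0 • E hk + mulDelta k g := by
  set a := (qExpansion 1 f).coeff 0 with ha
  have hf' : ∃ f' : ModularForm 𝒮ℒ k, f' = f - a • E hk := ⟨_, rfl⟩
  obtain ⟨f', hf'⟩ := hf'
  have h0 : (qExpansion 1 f').coeff 0 = 0 := by
    rw [hf', FunLike.coe_sub, ModularForm.qExpansion_sub one_pos one_mem_strictPeriods_SL,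
      FunLike.coe_smul, ModularForm.qExpansion_smul one_pos one_mem_strictPeriods_SL, map_sub,
      PowerSeries.coeff_smul, E_qExpansion_coeff_zero hk hk2, smul_eq_mul, mul_one, ← ha,
      sub_self]
  refine ⟨CuspForm.discriminantEquiv (toCuspForm f' h0), ?_⟩
  have h1 : mulDelta k (CuspForm.discriminantEquiv (toCuspForm f' h0)) = f' := by
    unfold mulDelta
    rw [LinearMap.comp_apply, LinearEquiv.coe_coe, LinearEquiv.symm_apply_apply]
    ext z
    rfl
  rw [h1, hf']
  abel

/-- Structural induction for level-one modular forms. -/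
theorem levelOne_induction {P : ∀ k : ℤ, ModularForm 𝒮ℒ k → Prop}
    (hzero : ∀ k : ℤ, P k 0)
    (hconst : ∀ c : ℂ, P 0 (ModularForm.const c))
    (hstep : ∀ (k : ℕ) (hk : 3 ≤ k) (_ : Even k) (a : ℂ) (g : ModularForm 𝒮ℒ ((k : ℤ) - 12)),
      P ((k : ℤ) - 12) g → P (k : ℤ) (a • E hk + mulDelta k g))
    (k : ℤ) (f : ModularForm 𝒮ℒ k) : P k f := by
  have key : ∀ n : ℕ, ∀ k : ℤ, k < 12 * n → ∀ f : ModularForm 𝒮ℒ k, P k f := by
    intro n
    induction n with
    | zero =>
      intro k hk f
      have hf : f = 0 := DFunLike.coe_injective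
        (ModularFormClass.levelOne_neg_weight_eq_zero (by simpa using hk) f)
      rw [hf]
      exact hzero k
    | succ n ih =>
      intro k hk f
      rcases lt_trichotomy k 0 with hneg | h0 | hpos
      · have hf : f = 0 := DFunLike.coe_injective
          (ModularFormClass.levelOne_neg_weight_eq_zero hneg f)
        rw [hf]
        exact hzero k
      · subst h0
        obtain ⟨c, hc⟩ := ModularFormClass.levelOne_weight_zero_const f
        have hf : f = ModularForm.const c := DFunLike.coe_injective hc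
        rw [hf]
        exact hconst c
      · rcases Int.even_or_odd k with heven | hodd
        · by_cases h2 : k = 2
          · subst h2
            have hf : f = 0 :=
              rank_zero_iff_forall_zero.mp ModularForm.levelOne_weight_two_rank_zero f
            rw [hf]
            exact hzero 2
          · obtain ⟨m, rfl⟩ := Int.eq_ofNat_of_zero_le hpos.le
            have hm3 : 3 ≤ m := by
              have hm2 : (m : ℤ) ≠ 2 := h2
              have hme : Even m := by exact_mod_cast heven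
              have hm0 : 0 < m := by exact_mod_cast hpos
              rcases hme with ⟨j, hj⟩
              omega
            have hme : Even m := by exact_mod_cast heven
            obtain ⟨g, hg⟩ := exists_decomp hm3 hme f
            rw [hg]
            exact hstep m hm3 hme _ g (ih _ (by push_cast at hk ⊢; omega) g)
        · have hf : f = 0 := ModularForm.levelOne_odd_weight_eq_zero hodd f
          rw [hf]
          exact hzero k
  obtain ⟨n, hn⟩ : ∃ n : ℕ, k < 12 * n := ⟨k.toNat + 1, by push_cast; omega⟩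
  exact key n k hn f

lemma qExpansion_const (c : ℂ) :
    qExpansion 1 (ModularForm.const c : ModularForm 𝒮ℒ 0) = PowerSeries.C c := by
  have h1 : (⇑(ModularForm.const c : ModularForm 𝒮ℒ 0) : ℍ → ℂ) =
      c • ⇑(1 : ModularForm 𝒮ℒ 0) := by
    funext z
    simp
  rw [h1, ModularForm.qExpansion_smul one_pos one_mem_strictPeriods_SL, ModularForm.qExpansion_one,
    PowerSeries.smul_eq_C_mul, mul_one]

/-- **Level-one twist.** For every ring hom `σ : ℂ →+* ℂ`, every level-one modular form `f`
has a twist whose q-expansion is that of `f` with `σ` applied to all coefficients. -/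
theorem twist (σ : ℂ →+* ℂ) (k : ℤ) (f : ModularForm 𝒮ℒ k) :
    ∃ g : ModularForm 𝒮ℒ k, qExpansion 1 g = (qExpansion 1 f).map σ := by
  refine levelOne_induction
    (P := fun k f => ∃ g : ModularForm 𝒮ℒ k, qExpansion 1 g = (qExpansion 1 f).map σ)
    ?_ ?_ ?_ k f
  · intro k
    exact ⟨0, by rw [FunLike.coe_zero, qExpansion_zero, map_zero]⟩
  · intro c
    refine ⟨ModularForm.const (σ c), ?_⟩
    rw [qExpansion_const, qExpansion_const, PowerSeries.map_C]
  · intro k hk hk2 a g ⟨g', hg'⟩
    refine ⟨σ a • E hk + mulDelta k g', ?_⟩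
    rw [FunLike.coe_add, FunLike.coe_add,
      ModularForm.qExpansion_add one_pos one_mem_strictPeriods_SL,
      ModularForm.qExpansion_add one_pos one_mem_strictPeriods_SL,
      FunLike.coe_smul, FunLike.coe_smul,
      ModularForm.qExpansion_smul one_pos one_mem_strictPeriods_SL,
      ModularForm.qExpansion_smul one_pos one_mem_strictPeriods_SL,
      qExpansion_mulDelta, qExpansion_mulDelta, hg', map_add, map_mul,
      map_qExpansion_discriminant, PowerSeries.smul_eq_C_mul, PowerSeries.smul_eq_C_mul,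
      map_mul, PowerSeries.map_C, map_qExpansion_E σ hk hk2]

/-- The set of level-one forms with integral q-expansion. -/
def intSet (k : ℤ) : Set (ModularForm 𝒮ℒ k) :=
  {g | ∀ n, ∃ m : ℤ, (qExpansion 1 g).coeff n = (m : ℂ)}

lemma mulDelta_mem_intSet (k : ℤ) {g : ModularForm 𝒮ℒ (k - 12)} (hg : g ∈ intSet (k - 12)) :
    mulDelta k g ∈ intSet k := by
  intro n
  rw [qExpansion_mulDelta, PowerSeries.coeff_mul]
  have h : ∀ p ∈ Finset.HasAntidiagonal.antidiagonal n, ∃ m : ℤ,
      (qExpansion 1 ModularForm.discriminant).coeff p.1 * (qExpansion 1 g).coeff p.2 = (m : ℂ) := by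
    intro p _
    obtain ⟨m1, hm1⟩ := discriminant_qExpansion_coeff_int p.1
    obtain ⟨m2, hm2⟩ := hg p.2
    exact ⟨m1 * m2, by rw [hm1, hm2]; push_cast; rfl⟩
  choose! m hm using h
  refine ⟨∑ p ∈ Finset.HasAntidiagonal.antidiagonal n, m p, ?_⟩
  push_cast
  exact Finset.sum_congr rfl hm

lemma E_mem_span_intSet {k : ℕ} (hk : 3 ≤ k) (hk2 : Even k) :
    E hk ∈ Submodule.span ℂ (intSet (k : ℤ)) := by
  obtain ⟨r, hr⟩ := qExpansion_E_coeff_rat hk hk2
  have hmem : ((r.den : ℂ) • E hk) ∈ intSet (k : ℤ) := by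
    intro n
    rw [FunLike.coe_smul, ModularForm.qExpansion_smul one_pos one_mem_strictPeriods_SL,
      PowerSeries.coeff_smul, hr, smul_eq_mul]
    split_ifs with hn
    · exact ⟨r.den, by push_cast; ring⟩
    · refine ⟨r.num * (ArithmeticFunction.sigma (k - 1) n : ℕ), ?_⟩
      have h1 : (r.den : ℂ) * (r : ℂ) = (r.num : ℂ) := by
        have := Rat.den_mul_eq_num r
        exact_mod_cast this
      push_cast
      rw [← mul_assoc, h1]
  have hden : (r.den : ℂ) ≠ 0 := by exact_mod_cast r.den_ne_zero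
  have : E hk = (r.den : ℂ)⁻¹ • ((r.den : ℂ) • E hk) := by
    rw [smul_smul, inv_mul_cancel₀ hden, one_smul]
  rw [this]
  exact Submodule.smul_mem _ _ (Submodule.subset_span hmem)

/-- **Integral spanning set.** Level-one modular forms of weight `k` are spanned over `ℂ` by
those with integer q-expansion coefficients. -/
theorem span_int (k : ℤ) :
    Submodule.span ℂ {g : ModularForm 𝒮ℒ k |
      ∀ n, ∃ m : ℤ, (qExpansion 1 g).coeff n = (m : ℂ)} = ⊤ := by
  rw [eq_top_iff]
  intro f _
  refine levelOne_induction (P := fun k f => f ∈ Submodule.span ℂ (intSet k)) ?_ ?_ ?_ k f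
  · intro k
    exact Submodule.zero_mem _
  · intro c
    have h1 : (ModularForm.const c : ModularForm 𝒮ℒ 0) = c • ModularForm.const 1 := by
      ext z
      simp
    rw [h1]
    refine Submodule.smul_mem _ _ (Submodule.subset_span ?_)
    intro n
    rw [qExpansion_const, PowerSeries.coeff_C]
    split_ifs
    · exact ⟨1, by simp⟩
    · exact ⟨0, by simp⟩
  · intro k hk hk2 a g hg
    refine Submodule.add_mem _ (Submodule.smul_mem _ _ (E_mem_span_intSet hk hk2)) ?_
    have h1 : (Submodule.span ℂ (intSet ((k : ℤ) - 12))).map (mulDelta (k : ℤ)) ≤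
        Submodule.span ℂ (intSet (k : ℤ)) := by
      rw [Submodule.map_span, Submodule.span_le]
      rintro _ ⟨g, hg, rfl⟩
      exact Submodule.subset_span (mulDelta_mem_intSet _ hg)
    exact h1 (Submodule.mem_map_of_mem hg)

/-- **Bounded denominators through a `ℚ`-linear functional.** For a level-one modular form `g`
and any `ℚ`-linear functional `l : ℂ → ℚ`, the rational numbers `l (aₙ(g))` have bounded
denominators. -/
theorem bddDenom_linear {k : ℤ} (g : ModularForm 𝒮ℒ k) (l : ℂ →ₗ[ℚ] ℚ) :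
    ∃ M : ℕ, 0 < M ∧ ∀ n, ∃ m : ℤ, (M : ℚ) * l ((qExpansion 1 g).coeff n) = (m : ℚ) := by
  have key : ∀ f ∈ Submodule.span ℂ (intSet k), ∀ c : ℂ, ∃ M : ℕ, 0 < M ∧
      ∀ n, ∃ m : ℤ, (M : ℚ) * l (c * (qExpansion 1 f).coeff n) = (m : ℚ) := by
    intro f hf
    induction hf using Submodule.span_induction with
    | mem f hf =>
      intro c
      refine ⟨(l c).den, (l c).den_pos, fun n => ?_⟩
      obtain ⟨m, hm⟩ := hf n
      refine ⟨m * (l c).num, ?_⟩
      have h1 : c * (m : ℂ) = m • c := by rw [zsmul_eq_mul, mul_comm]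
      rw [hm, h1, map_zsmul, zsmul_eq_mul]
      have h2 := Rat.den_mul_eq_num (l c)
      push_cast
      rw [← h2]
      ring
    | zero =>
      intro c
      refine ⟨1, one_pos, fun n => ⟨0, ?_⟩⟩
      rw [FunLike.coe_zero, qExpansion_zero]
      simp
    | add f g _ _ ihf ihg =>
      intro c
      obtain ⟨M1, hM1, h1⟩ := ihf c
      obtain ⟨M2, hM2, h2⟩ := ihg c
      refine ⟨M1 * M2, Nat.mul_pos hM1 hM2, fun n => ?_⟩
      obtain ⟨m1, hm1⟩ := h1 n
      obtain ⟨m2, hm2⟩ := h2 n
      refine ⟨M2 * m1 + M1 * m2, ?_⟩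
      rw [FunLike.coe_add, ModularForm.qExpansion_add one_pos one_mem_strictPeriods_SL, map_add,
        mul_add, map_add]
      push_cast
      rw [← hm1, ← hm2]
      ring
    | smul a f _ ih =>
      intro c
      obtain ⟨M, hM, h⟩ := ih (c * a)
      refine ⟨M, hM, fun n => ?_⟩
      obtain ⟨m, hm⟩ := h n
      refine ⟨m, ?_⟩
      rw [FunLike.coe_smul, ModularForm.qExpansion_smul one_pos one_mem_strictPeriods_SL,
        PowerSeries.coeff_smul, smul_eq_mul, ← mul_assoc]
      exact hm
  have hg : g ∈ Submodule.span ℂ (intSet k) := by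
    have h := span_int k
    rw [intSet, h]
    exact Submodule.mem_top
  obtain ⟨M, hM, h⟩ := key g hg 1
  exact ⟨M, hM, fun n => by simpa using h n⟩

/-- **Bounded denominators.** A level-one modular form with rational q-expansion coefficients
has bounded denominators. -/
theorem bddDenom {k : ℤ} (g : ModularForm 𝒮ℒ k)
    (hg : ∀ n, ∃ r : ℚ, (qExpansion 1 g).coeff n = (r : ℂ)) :
    ∃ M : ℕ, 0 < M ∧ ∀ n, ∃ m : ℤ, (M : ℂ) * (qExpansion 1 g).coeff n = (m : ℂ) := by
  obtain ⟨l, hl⟩ := LinearMap.exists_leftInverse_of_injective (Algebra.linearMap ℚ ℂ)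
    (LinearMap.ker_eq_bot.mpr (algebraMap ℚ ℂ).injective)
  obtain ⟨M, hM, h⟩ := bddDenom_linear g l
  refine ⟨M, hM, fun n => ?_⟩
  obtain ⟨m, hm⟩ := h n
  obtain ⟨r, hr⟩ := hg n
  refine ⟨m, ?_⟩
  have h1 : l (r : ℂ) = r := by
    have := LinearMap.congr_fun hl r
    simpa using this
  rw [hr] at hm ⊢
  rw [h1] at hm
  exact_mod_cast congrArg (fun x : ℚ => (x : ℂ)) hm

end Fermat.Agent.Lib.IntStruct.LevelOne
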